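import Mathlib.Analysis.SpecialFunctions.Log.NegMulLog
import Mathlib.Analysis.Convex.StdSimplex

/-!
# The capacity of a channel

The mutual information of an input law is continuous, so it attains a maximum `C`. Moving a little
mass of a maximiser to one letter shows that every row has divergence at most `C` from the output
of the maximiser, which is therefore the best centre for the rows.
-/

set_option autoImplicit false

noncomputable section

open Filter Topology Real

namespace FA.ChannelCoding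

variable {X Y : Type*} [Fintype X] [Fintype Y]

/-- A channel: a law on `Y` for every letter of `X`. -/
def IsChannel (W : X → Y → ℝ) : Prop := ∀ x, W x ∈ stdSimplex ℝ Y

/-- The law of the output. -/
def out (W : X → Y → ℝ) (p : X → ℝ) (y : Y) : ℝ := ∑ x, p x * W x y

/-- The relative entropy. -/
def relEnt (r q : Y → ℝ) : ℝ := ∑ y, r y * log (r y / q y)

/-- The mutual information of the input and the output. -/
def mutualInfo (W : X → Y → ℝ) (p : X → ℝ) : ℝ :=
  ∑ y, negMulLog (out W p y) - ∑ x, p x * ∑ y, negMulLog (W x y)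

/-- The capacity. -/
def capacity (W : X → Y → ℝ) : ℝ := sSup (mutualInfo W '' stdSimplex ℝ X)

theorem out_mem {W : X → Y → ℝ} (hW : IsChannel W) {p : X → ℝ} (hp : p ∈ stdSimplex ℝ X) :
    out W p ∈ stdSimplex ℝ Y :=
  ⟨fun y => Finset.sum_nonneg fun x _ => mul_nonneg (hp.1 x) ((hW x).1 y), by
    simp only [out]
    rw [Finset.sum_comm]
    simp [← Finset.mul_sum, (hW _).2, hp.2]⟩

theorem relEnt_self (r : Y → ℝ) : relEnt r r = 0 :=
  Finset.sum_eq_zero fun y _ => by
    rcases eq_or_ne (r y) 0 with h | h <;> simp [h]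

/-- **Gibbs' inequality.** -/
theorem relEnt_nonneg {r q : Y → ℝ} (hr : r ∈ stdSimplex ℝ Y) (hq : q ∈ stdSimplex ℝ Y)
    (h : ∀ y, q y = 0 → r y = 0) : 0 ≤ relEnt r q := by
  have key : ∀ y, r y - q y ≤ r y * log (r y / q y) := fun y => by
    rcases (hr.1 y).eq_or_lt with hy | hy
    · rw [← hy, zero_mul]
      linarith [hq.1 y]
    have hqy : 0 < q y := (hq.1 y).lt_of_ne fun h' => hy.ne' (h y h'.symm)
    have h1 := mul_le_mul_of_nonneg_left (log_le_sub_one_of_pos (div_pos hqy hy)) hy.le
    rw [log_div hqy.ne' hy.ne', mul_sub_one, mul_div_cancel₀ _ hy.ne'] at h1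
    rw [log_div hy.ne' hqy.ne']
    linarith
  calc (0 : ℝ) = ∑ y, (r y - q y) := by rw [Finset.sum_sub_distrib, hr.2, hq.2, sub_self]
    _ ≤ relEnt r q := Finset.sum_le_sum fun y _ => key y

/-- The mean divergence of the rows from a law. -/
theorem sum_relEnt_eq {W : X → Y → ℝ} {p : X → ℝ}
    {q : Y → ℝ} (h : ∀ x y, q y = 0 → p x * W x y = 0) :
    ∑ x, p x * relEnt (W x) q = mutualInfo W p + relEnt (out W p) q := by
  have e1 : ∀ x y, p x * (W x y * log (W x y / q y)) =
      -(p x * negMulLog (W x y)) - p x * W x y * log (q y) := fun x y => by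
    rcases eq_or_ne (p x * W x y) 0 with h0 | h0
    · rcases mul_eq_zero.1 h0 with h1 | h1 <;> simp [h1]
    rw [log_div (right_ne_zero_of_mul h0) fun hq => h0 (h x y hq), negMulLog]
    ring
  have e2 : ∀ y, out W p y * log (out W p y / q y) =
      -negMulLog (out W p y) - out W p y * log (q y) := fun y => by
    rcases eq_or_ne (out W p y) 0 with h0 | h0
    · simp [h0]
    rw [log_div h0 fun hq => h0 (Finset.sum_eq_zero fun x _ => h x y hq), negMulLog]
    ring
  simp only [relEnt, Finset.mul_sum, e1, e2, Finset.sum_sub_distrib, Finset.sum_neg_distrib]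
  rw [mutualInfo, Finset.sum_comm (f := fun x y => p x * W x y * log (q y))]
  simp only [← Finset.sum_mul, out, Finset.mul_sum]
  ring

theorem mutualInfo_eq {W : X → Y → ℝ} (hW : IsChannel W) {p : X → ℝ} (hp : ∀ x, 0 ≤ p x) :
    mutualInfo W p = ∑ x, p x * relEnt (W x) (out W p) := by
  rw [sum_relEnt_eq (q := out W p) fun x y hy => (Finset.sum_eq_zero_iff_of_nonneg fun x _ =>
    mul_nonneg (hp x) ((hW x).1 y)).1 hy x (Finset.mem_univ x), relEnt_self, add_zero]

theorem continuous_mutualInfo (W : X → Y → ℝ) : Continuous (mutualInfo W) := by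
  unfold mutualInfo out
  fun_prop

variable [Nonempty X]

/-- **The capacity is attained.** -/
theorem exists_capacity (W : X → Y → ℝ) : ∃ p ∈ stdSimplex ℝ X, mutualInfo W p = capacity W ∧
    ∀ p' ∈ stdSimplex ℝ X, mutualInfo W p' ≤ capacity W := by
  classical
  have hne : (stdSimplex ℝ X).Nonempty :=
    ⟨_, single_mem_stdSimplex ℝ (Classical.arbitrary X)⟩
  obtain ⟨p, hp, hmax⟩ := (isCompact_stdSimplex ℝ X).exists_isMaxOn hne
    (continuous_mutualInfo W).continuousOn
  have h : IsGreatest (mutualInfo W '' stdSimplex ℝ X) (mutualInfo W p) :=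
    ⟨⟨p, hp, rfl⟩, fun _ ⟨p', hp', he⟩ => he ▸ hmax hp'⟩
  exact ⟨p, hp, h.csSup_eq.symm, fun p' hp' => (hmax hp').trans_eq h.csSup_eq.symm⟩

/-- **Every row is within the capacity of the output of a maximiser.** -/
theorem relEnt_le_capacity {W : X → Y → ℝ} (hW : IsChannel W) {p : X → ℝ}
    (hp : p ∈ stdSimplex ℝ X) (hC : mutualInfo W p = capacity W) (x : X) :
    (∀ y, out W p y = 0 → W x y = 0) ∧ relEnt (W x) (out W p) ≤ capacity W := by
  classical
  set r := W x
  set q := out W p with hqdef
  have hq := out_mem hW hp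
  obtain ⟨_, _, -, hmax⟩ := exists_capacity W
  set qt : ℝ → Y → ℝ := fun t y => (1 - t) * q y + t * r y with hqt
  have key : ∀ t ∈ Set.Ioo (0 : ℝ) 1, relEnt r (qt t) ≤ capacity W := fun t ht => by
    have ht1 : 0 < 1 - t := sub_pos.2 ht.2
    set pt : X → ℝ := fun z => (1 - t) * p z + t * (if z = x then 1 else 0)
    have hpt : pt ∈ stdSimplex ℝ X :=
      ⟨fun z => add_nonneg (mul_nonneg ht1.le (hp.1 z))
        (mul_nonneg ht.1.le (by split_ifs <;> norm_num)), by
        simp [pt, Finset.sum_add_distrib, ← Finset.mul_sum, hp.2]⟩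
    have hout : out W pt = qt t := funext fun y => by
      simp [out, pt, hqt, hqdef, r, add_mul, Finset.sum_add_distrib, mul_assoc, ← Finset.mul_sum]
    have hz : ∀ y, qt t y = 0 → q y = 0 ∧ r y = 0 := fun y hy => by
      have h1 := mul_nonneg ht1.le (hq.1 y)
      have h2 := mul_nonneg ht.1.le ((hW x).1 y)
      have hy' : (1 - t) * q y + t * r y = 0 := hy
      exact ⟨(mul_eq_zero.1 (by linarith : (1 - t) * q y = 0)).resolve_left ht1.ne',
        (mul_eq_zero.1 (by linarith : t * r y = 0)).resolve_left ht.1.ne'⟩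
    have h1 := sum_relEnt_eq (W := W) (p := p) (q := qt t) fun z y hy =>
      (Finset.sum_eq_zero_iff_of_nonneg fun z _ => mul_nonneg (hp.1 z) ((hW z).1 y)).1
        (hz y hy).1 z (Finset.mem_univ z)
    rw [← hqdef, hC] at h1
    have h2 : 0 ≤ relEnt q (qt t) := relEnt_nonneg hq (hout ▸ out_mem hW hpt)
      fun y hy => (hz y hy).1
    have h3 := hmax pt hpt
    rw [mutualInfo_eq hW hpt.1, hout] at h3
    have e : ∑ z, pt z * relEnt (W z) (qt t) =
        (1 - t) * ∑ z, p z * relEnt (W z) (qt t) + t * relEnt r (qt t) := by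
      simp [pt, r, add_mul, Finset.sum_add_distrib, mul_assoc, ← Finset.mul_sum]
    rw [e, h1] at h3
    refine le_of_mul_le_mul_left ?_ ht.1
    nlinarith [mul_nonneg ht1.le h2]
  have hsupp : ∀ y, q y = 0 → r y = 0 := fun y₀ hy => by
    by_contra hne
    have hr0 : 0 < r y₀ := ((hW x).1 y₀).lt_of_ne' hne
    set H := ∑ y, negMulLog (r y)
    have hr1 : ∀ y, r y ≤ 1 := fun y =>
      (Finset.single_le_sum (fun z _ => (hW x).1 z) (Finset.mem_univ y)).trans_eq (hW x).2
    have hH : 0 ≤ H := Finset.sum_nonneg fun y _ => negMulLog_nonneg ((hW x).1 y) (hr1 y)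
    set L := (|capacity W| + H + 1) / r y₀
    have hL : 0 < L := by positivity
    set t := exp (-L)
    have ht : t ∈ Set.Ioo (0 : ℝ) 1 := ⟨exp_pos _, exp_lt_one_iff.2 (neg_lt_zero.2 hL)⟩
    have hge : -H + r y₀ * L ≤ relEnt r (qt t) := by
      have hterm : ∀ y, -negMulLog (r y) + (if y = y₀ then r y₀ * L else 0) ≤
          r y * log (r y / qt t y) := fun y => by
        rcases ((hW x).1 y).eq_or_lt with h0 | h0
        · rw [show r y = 0 from h0.symm]
          have : y ≠ y₀ := fun he => hr0.ne' (he ▸ h0.symm)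
          simp [this]
        have hpos : 0 < qt t y := add_pos_of_nonneg_of_pos
          (mul_nonneg (sub_pos.2 ht.2).le (hq.1 y)) (mul_pos ht.1 h0)
        rw [log_div (show r y ≠ 0 from h0.ne') hpos.ne', negMulLog]
        split_ifs with he
        · subst he
          have e : qt t y = t * r y := by simp [hqt, hy]
          have hr1' := mul_nonpos_of_nonneg_of_nonpos h0.le (log_nonpos h0.le (hr1 y))
          rw [e, log_mul ht.1.ne' (show r y ≠ 0 from h0.ne'), log_exp]
          linarith
        · have : log (qt t y) ≤ 0 := log_nonpos hpos.le (by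
            have hq1 : q y ≤ 1 :=
              (Finset.single_le_sum (fun z _ => hq.1 z) (Finset.mem_univ y)).trans_eq hq.2
            have := mul_le_mul_of_nonneg_left hq1 (sub_pos.2 ht.2).le
            have := mul_le_mul_of_nonneg_left (hr1 y) ht.1.le
            simp only [hqt]
            linarith)
          have := mul_nonpos_of_nonneg_of_nonpos h0.le this
          linarith
      have h := Finset.sum_le_sum fun y (_ : y ∈ Finset.univ) => hterm y
      simpa [Finset.sum_add_distrib, H, relEnt] using h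
    have e : r y₀ * L = |capacity W| + H + 1 := mul_div_cancel₀ _ hr0.ne'
    linarith [key t ht, le_abs_self (capacity W)]
  refine ⟨hsupp, le_of_tendsto (x := 𝓝[>] (0 : ℝ)) (f := fun t => relEnt r (qt t)) ?_
    (eventually_of_mem (Ioo_mem_nhdsGT one_pos) key)⟩
  refine tendsto_nhdsWithin_of_tendsto_nhds (tendsto_finsetSum _ fun y _ => ?_)
  rcases eq_or_ne (r y) 0 with h0 | h0
  · simp [h0]
  have hq0 : q y ≠ 0 := fun h' => h0 (hsupp y h')
  have hc : Tendsto (fun t : ℝ => qt t y) (𝓝 0) (𝓝 (q y)) := by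
    simpa [hqt] using (by fun_prop : Continuous fun t : ℝ => qt t y).tendsto 0
  exact tendsto_const_nhds.mul ((continuousAt_log (div_ne_zero h0 hq0)).tendsto.comp
    (tendsto_const_nhds.div hc hq0))

/-- The rows that are used reach the capacity. -/
theorem relEnt_eq_capacity {W : X → Y → ℝ} (hW : IsChannel W) {p : X → ℝ}
    (hp : p ∈ stdSimplex ℝ X) (hC : mutualInfo W p = capacity W) {x : X} (hx : 0 < p x) :
    relEnt (W x) (out W p) = capacity W := by
  have h0 : ∑ z, p z * (capacity W - relEnt (W z) (out W p)) = 0 := by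
    simp only [mul_sub, Finset.sum_sub_distrib, ← Finset.sum_mul, hp.2, ← mutualInfo_eq hW hp.1,
      hC, one_mul, sub_self]
  have := (Finset.sum_eq_zero_iff_of_nonneg fun z _ => mul_nonneg (hp.1 z)
    (sub_nonneg.2 (relEnt_le_capacity hW hp hC z).2)).1 h0 x (Finset.mem_univ x)
  linarith [(mul_eq_zero.1 this).resolve_left hx.ne']

/-- No other law is closer to all the rows. -/
theorem exists_capacity_le {W : X → Y → ℝ} (hW : IsChannel W) {q : Y → ℝ}
    (hq : q ∈ stdSimplex ℝ Y) (h : ∀ x y, q y = 0 → W x y = 0) :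
    ∃ x, capacity W ≤ relEnt (W x) q := by
  obtain ⟨p, hp, hC, -⟩ := exists_capacity W
  by_contra hcon
  push Not at hcon
  have h1 := sum_relEnt_eq (W := W) (p := p) (q := q) fun x y hy =>
    mul_eq_zero_of_right _ (h x y hy)
  have h2 : 0 ≤ relEnt (out W p) q := relEnt_nonneg (out_mem hW hp) hq fun y hy =>
    Finset.sum_eq_zero fun x _ => mul_eq_zero_of_right _ (h x y hy)
  obtain ⟨x, -, hx⟩ := Finset.exists_ne_zero_of_sum_ne_zero (hp.2.trans_ne one_ne_zero)
  have h3 : ∑ z, p z * relEnt (W z) q < ∑ z, p z * capacity W :=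
    Finset.sum_lt_sum (fun z _ => mul_le_mul_of_nonneg_left (hcon z).le (hp.1 z))
      ⟨x, Finset.mem_univ x, mul_lt_mul_of_pos_left (hcon x) ((hp.1 x).lt_of_ne' hx)⟩
  rw [← Finset.sum_mul, hp.2, one_mul, h1, hC] at h3
  linarith

end FA.ChannelCoding

end
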