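import Fermat.Agent.ChannelCoding.Capacity
import Mathlib.Analysis.Calculus.Deriv.Slope
import Mathlib.Analysis.SpecialFunctions.ExpDeriv

/-!
# Codes for a channel

Feinstein's greedy choice gives codes with exponentially small maximal error below the capacity.
Above it the best output law shows that the probability of correct decoding is exponentially small.
-/

set_option autoImplicit false

noncomputable section

open Filter Topology Real

namespace FA.ChannelCoding

variable {X Y : Type*} [Fintype X] [Fintype Y]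

/-- `n` uses of a channel. -/
def wordW (W : X → Y → ℝ) (n : ℕ) (u : Fin n → X) (v : Fin n → Y) : ℝ := ∏ i, W (u i) (v i)

/-- The sum of the informations of the letters. -/
def infoSum (W : X → Y → ℝ) (q : Y → ℝ) (n : ℕ) (u : Fin n → X) (v : Fin n → Y) : ℝ :=
  ∑ i, log (W (u i) (v i) / q (v i))

/-- The law of `n` independent letters. -/
def prodLaw {α : Type*} (p : α → ℝ) (n : ℕ) (u : Fin n → α) : ℝ := ∏ i, p (u i)

omit [Fintype X] in
theorem wordW_nonneg {W : X → Y → ℝ} (hW : IsChannel W) (n : ℕ) (u : Fin n → X) (v : Fin n → Y) :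
    0 ≤ wordW W n u v :=
  Finset.prod_nonneg fun _ _ => (hW _).1 _

omit [Fintype X] in
theorem sum_wordW {W : X → Y → ℝ} (hW : IsChannel W) (n : ℕ) (u : Fin n → X) :
    ∑ v, wordW W n u v = 1 := by
  simp only [wordW]
  rw [← Fintype.prod_sum fun i b => W (u i) b]
  simp [(hW _).2]

theorem sum_prodLaw {α : Type*} [Fintype α] {p : α → ℝ} (hp : p ∈ stdSimplex ℝ α) (n : ℕ) :
    ∑ u : Fin n → α, prodLaw p n u = 1 := by
  simp only [prodLaw]
  rw [← Fintype.prod_sum fun (_ : Fin n) a => p a]
  simp [hp.2]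

omit [Fintype X] in
/-- Where no letter is impossible, a word is the output law times the exponential of its
information. -/
theorem wordW_eq {W : X → Y → ℝ} (hW : IsChannel W) {q : Y → ℝ} (hq : ∀ y, 0 ≤ q y) {n : ℕ}
    {u : Fin n → X} {v : Fin n → Y} (h : wordW W n u v ≠ 0)
    (hd : ∀ i, q (v i) = 0 → W (u i) (v i) = 0) :
    wordW W n u v = prodLaw q n v * exp (infoSum W q n u v) := by
  have hi : ∀ i, 0 < W (u i) (v i) ∧ 0 < q (v i) := fun i => by
    have h0 := Finset.prod_ne_zero_iff.1 h i (Finset.mem_univ i)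
    exact ⟨((hW _).1 _).lt_of_ne' h0, (hq _).lt_of_ne' fun h' => h0 (hd i h')⟩
  rw [infoSum, exp_sum, prodLaw, ← Finset.prod_mul_distrib]
  exact Finset.prod_congr rfl fun i _ => by
    rw [exp_log (div_pos (hi i).1 (hi i).2), mul_div_cancel₀ _ (hi i).2.ne']

/-- An exponential moment of a variable of negative mean is below one. -/
theorem eventually_moment_lt_one {ι : Type*} [Fintype ι] (w f : ι → ℝ) (h1 : ∑ i, w i = 1)
    (hf : ∑ i, w i * f i < 0) : ∀ᶠ s in 𝓝[>] (0 : ℝ), ∑ i, w i * exp (s * f i) < 1 := by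
  have hd : HasDerivAt (fun s => ∑ i, w i * exp (s * f i)) (∑ i, w i * f i) 0 := by
    have := HasDerivAt.fun_sum (u := Finset.univ) fun i (_ : i ∈ Finset.univ) =>
      (((hasDerivAt_id (0 : ℝ)).mul_const (f i)).exp.const_mul (w i))
    simpa using this
  filter_upwards [hd.tendsto_slope_zero_right.eventually_lt_const hf, self_mem_nhdsWithin]
    with s hs (hs0 : 0 < s)
  simp only [zero_add, zero_mul, exp_zero, mul_one, h1, smul_eq_mul] at hs
  by_contra hcon
  push Not at hcon
  nlinarith [inv_pos.2 hs0]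

/-- The words with information over a threshold above the capacity are exponentially rare. -/
theorem exists_upper_tail [Nonempty X] {W : X → Y → ℝ} (hW : IsChannel W) {q : Y → ℝ} {c : ℝ}
    (hc : ∀ x, relEnt (W x) q < c) :
    ∃ σ, 0 ≤ σ ∧ σ < 1 ∧ ∀ (n : ℕ) (u : Fin n → X),
      ∑ v, (if n * c < infoSum W q n u v then wordW W n u v else 0) ≤ σ ^ n := by
  classical
  have hev : ∀ᶠ s in 𝓝[>] (0 : ℝ), ∀ x,
      ∑ y, W x y * exp (s * (log (W x y / q y) - c)) < 1 := eventually_all.2 fun x =>
    eventually_moment_lt_one _ _ (hW x).2 (by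
      simp only [mul_sub, Finset.sum_sub_distrib, ← Finset.sum_mul, (hW x).2, one_mul]
      exact sub_neg.2 (hc x))
  obtain ⟨s, hs, hs0 : 0 < s⟩ := (hev.and self_mem_nhdsWithin).exists
  set g : X → ℝ := fun x => ∑ y, W x y * exp (s * (log (W x y / q y) - c))
  have hg : ∀ x, 0 ≤ g x := fun x =>
    Finset.sum_nonneg fun y _ => mul_nonneg ((hW x).1 y) (exp_pos _).le
  refine ⟨Finset.univ.sup' Finset.univ_nonempty g,
    (hg (Classical.arbitrary X)).trans (Finset.le_sup' g (Finset.mem_univ _)),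
    (Finset.sup'_lt_iff _).2 fun x _ => hs x, fun n u => ?_⟩
  calc ∑ v, (if n * c < infoSum W q n u v then wordW W n u v else 0)
      ≤ ∑ v : Fin n → Y, ∏ i, W (u i) (v i) * exp (s * (log (W (u i) (v i) / q (v i)) - c)) := by
        refine Finset.sum_le_sum fun v _ => ?_
        rw [Finset.prod_mul_distrib, ← exp_sum, ← Finset.mul_sum, Finset.sum_sub_distrib]
        split_ifs with h
        · refine le_mul_of_one_le_right (wordW_nonneg hW n u v) (one_le_exp (mul_nonneg hs0.le ?_))
          have h' : (n : ℝ) * c < ∑ i, log (W (u i) (v i) / q (v i)) := h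
          simp only [Finset.sum_const, Finset.card_univ, Fintype.card_fin, nsmul_eq_mul]
          linarith
        · exact mul_nonneg (wordW_nonneg hW n u v) (exp_pos _).le
    _ = ∏ i, g (u i) :=
        (Fintype.prod_sum fun i y => W (u i) y * exp (s * (log (W (u i) y / q y) - c))).symm
    _ ≤ ∏ _i : Fin n, Finset.univ.sup' Finset.univ_nonempty g :=
        Finset.prod_le_prod (fun i _ => hg (u i))
          fun i _ => Finset.le_sup' g (Finset.mem_univ (u i))
    _ = _ := Fin.prod_const n _

/-- The pairs of words with information below a threshold under the capacity are exponentially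
rare. -/
theorem exists_lower_tail [Nonempty X] {W : X → Y → ℝ} (hW : IsChannel W) {p : X → ℝ}
    (hp : p ∈ stdSimplex ℝ X) {c : ℝ} (hc : c < mutualInfo W p) :
    ∃ σ, 0 ≤ σ ∧ σ < 1 ∧ ∀ n : ℕ, ∑ u : Fin n → X, prodLaw p n u * ∑ v : Fin n → Y,
      (if infoSum W (out W p) n u v ≤ n * c then wordW W n u v else 0) ≤ σ ^ n := by
  classical
  set q := out W p
  set f : X × Y → ℝ := fun z => c - log (W z.1 z.2 / q z.2)
  have hf : ∑ z : X × Y, p z.1 * W z.1 z.2 * f z < 0 := by
    simp only [f, mul_sub, Finset.sum_sub_distrib, Fintype.sum_prod_type, ← Finset.sum_mul]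
    simp only [← Finset.mul_sum, (hW _).2, mul_one, mul_assoc, hp.2, one_mul]
    rw [mutualInfo_eq hW hp.1] at hc
    exact sub_neg.2 hc
  obtain ⟨s, hs, hs0 : 0 < s⟩ := ((eventually_moment_lt_one (fun z : X × Y => p z.1 * W z.1 z.2) f
    (by simp [Fintype.sum_prod_type, ← Finset.mul_sum, (hW _).2, hp.2]) hf).and
    self_mem_nhdsWithin).exists
  refine ⟨_, Finset.sum_nonneg fun z _ => mul_nonneg (mul_nonneg (hp.1 z.1) ((hW z.1).1 z.2))
    (exp_pos _).le, hs, fun n => ?_⟩
  rw [← Fin.prod_const n, Fintype.prod_sum, ← (Equiv.arrowProdEquivProdArrow (Fin n) (fun _ => X)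
    fun _ => Y).symm.sum_comp, Fintype.sum_prod_type]
  refine Finset.sum_le_sum fun u _ => ?_
  rw [Finset.mul_sum]
  refine Finset.sum_le_sum fun v _ => ?_
  simp only [Equiv.arrowProdEquivProdArrow, Equiv.coe_fn_symm_mk, Finset.prod_mul_distrib,
    ← exp_sum, ← Finset.mul_sum, f, Finset.sum_sub_distrib, Finset.sum_const, Finset.card_univ,
    Fintype.card_fin, nsmul_eq_mul]
  rw [mul_assoc]
  refine mul_le_mul_of_nonneg_left ?_ (Finset.prod_nonneg fun i _ => hp.1 _)
  split_ifs with h
  · refine le_mul_of_one_le_right (wordW_nonneg hW n u v) (one_le_exp (mul_nonneg hs0.le ?_))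
    exact sub_nonneg.2 h
  · exact mul_nonneg (wordW_nonneg hW n u v) (exp_pos _).le

/-- **Feinstein's lemma.** -/
theorem exists_code_sets [DecidableEq Y] {W : X → Y → ℝ} (hW : IsChannel W) {p : X → ℝ}
    (hp : p ∈ stdSimplex ℝ X) (hsupp : ∀ x y, out W p y = 0 → W x y = 0) (n : ℕ) {T δ ε : ℝ}
    (hδ : ∑ u : Fin n → X, prodLaw p n u * ∑ v : Fin n → Y,
      (if infoSum W (out W p) n u v ≤ T then wordW W n u v else 0) ≤ δ) :
    ∀ M : ℕ, (M : ℝ) - 1 < (ε - δ) * exp T →
      ∃ (c : Fin M → Fin n → X) (D : Fin M → Finset (Fin n → Y)),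
        (∀ i j, i ≠ j → Disjoint (D i) (D j)) ∧
        (∀ i, 1 - ε ≤ ∑ v ∈ D i, wordW W n (c i) v) ∧
        ∀ i, ∀ v ∈ D i, prodLaw (out W p) n v * exp T ≤ wordW W n (c i) v := by
  classical
  set q := out W p
  have hq : q ∈ stdSimplex ℝ Y := out_mem hW hp
  intro M
  induction M with
  | zero => exact fun _ =>
      ⟨Fin.elim0, Fin.elim0, fun i => i.elim0, fun i => i.elim0, fun i => i.elim0⟩
  | succ M ih =>
    intro hM
    push_cast at hM
    obtain ⟨c, D, hdis, hmass, hinfo⟩ := ih (by linarith)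
    set B : (Fin n → X) → Finset (Fin n → Y) := fun u =>
      Finset.univ.filter fun v => T < infoSum W q n u v ∧ wordW W n u v ≠ 0
    set U := Finset.univ.biUnion D
    have hB : ∀ u, ∀ v ∈ B u, prodLaw q n v * exp T ≤ wordW W n u v := fun u v hv => by
      obtain ⟨h1, h2⟩ := (Finset.mem_filter.1 hv).2
      rw [wordW_eq hW hq.1 h2 fun i h => hsupp _ _ h]
      exact mul_le_mul_of_nonneg_left (exp_le_exp.2 h1.le)
        (Finset.prod_nonneg fun i _ => hq.1 _)
    by_cases hex : ∃ u, 1 - ε ≤ ∑ v ∈ B u \ U, wordW W n u v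
    · obtain ⟨u, hu⟩ := hex
      refine ⟨Fin.cons u c, Fin.cons (B u \ U) D, fun i j hij => ?_, fun i => ?_, fun i => ?_⟩
      · have hU : ∀ j, Disjoint (B u \ U) (D j) := fun j =>
          Finset.disjoint_left.2 fun v hv hvj =>
            (Finset.mem_sdiff.1 hv).2 (Finset.mem_biUnion.2 ⟨j, Finset.mem_univ j, hvj⟩)
        refine Fin.cases ?_ (fun i => ?_) i j hij
        · refine fun j => Fin.cases (fun h => absurd rfl h) (fun j _ => ?_) j
          simpa using hU j
        · refine fun j => Fin.cases (fun _ => ?_) (fun j h => ?_) j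
          · simpa using (hU i).symm
          · simpa using hdis i j fun h' => h (h' ▸ rfl)
      · refine Fin.cases ?_ (fun i => ?_) i
        · simpa using hu
        · simpa using hmass i
      · refine Fin.cases ?_ (fun i => ?_) i
        · simpa using fun v hv => hB u v (Finset.mem_sdiff.1 hv).1
        · simpa using hinfo i
    exfalso
    push Not at hex
    have hU : ∑ v ∈ U, prodLaw q n v ≤ M * exp (-T) := by
      rw [Finset.sum_biUnion fun i _ j _ h => hdis i j h]
      refine (Finset.sum_le_sum (g := fun _ => exp (-T)) fun i _ => ?_).trans_eq (by simp)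
      rw [exp_neg, ← one_div, le_div_iff₀ (exp_pos T), Finset.sum_mul]
      refine le_trans (Finset.sum_le_sum fun v hv => hinfo i v hv) ?_
      exact (Finset.sum_le_univ_sum_of_nonneg (wordW_nonneg hW n (c i))).trans_eq
        (sum_wordW hW n (c i))
    have hout : ∀ v, ∑ u : Fin n → X, prodLaw p n u * wordW W n u v = prodLaw q n v := fun v => by
      simp only [prodLaw, wordW, ← Finset.prod_mul_distrib]
      exact (Fintype.prod_sum fun i x => p x * W x (v i)).symm
    have hpt : ∀ u, 1 - (∑ v, if infoSum W q n u v ≤ T then wordW W n u v else 0) ≤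
        (1 - ε) + ∑ v ∈ U, wordW W n u v := fun u => by
      have h1 : ∑ v ∈ B u, wordW W n u v +
          (∑ v, if infoSum W q n u v ≤ T then wordW W n u v else 0) = 1 := by
        rw [Finset.sum_filter, ← Finset.sum_add_distrib, ← sum_wordW hW n u]
        refine Finset.sum_congr rfl fun v _ => ?_
        by_cases h2 : wordW W n u v = 0
        · simp [h2]
        · by_cases h3 : infoSum W q n u v ≤ T
          · simp [h2, h3]
          · simp [h2, h3, not_le.1 h3]
      have h2 : ∑ v ∈ B u, wordW W n u v ≤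
          ∑ v ∈ B u \ U, wordW W n u v + ∑ v ∈ U, wordW W n u v := by
        rw [← Finset.sum_inter_add_sum_sdiff (B u) U, add_comm]
        exact add_le_add le_rfl (Finset.sum_le_sum_of_subset_of_nonneg Finset.inter_subset_right
          fun v _ _ => wordW_nonneg hW n u v)
      linarith [hex u]
    have h3 := Finset.sum_le_sum fun u (_ : u ∈ Finset.univ) =>
      mul_le_mul_of_nonneg_left (hpt u) (show 0 ≤ prodLaw p n u from
        Finset.prod_nonneg fun i _ => hp.1 (u i))
    simp only [mul_sub, mul_add, mul_one, Finset.sum_sub_distrib, Finset.sum_add_distrib,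
      ← Finset.sum_mul, sum_prodLaw hp, one_mul] at h3
    have h4 : ∑ u : Fin n → X, prodLaw p n u * ∑ v ∈ U, wordW W n u v = ∑ v ∈ U, prodLaw q n v := by
      simp only [Finset.mul_sum]
      rw [Finset.sum_comm]
      exact Finset.sum_congr rfl fun v _ => hout v
    rw [h4] at h3
    have h5 : (ε - δ) * exp T ≤ M := by
      have := mul_le_mul_of_nonneg_right (show ε - δ ≤ (M : ℝ) * exp (-T) by linarith)
        (exp_pos T).le
      rwa [mul_assoc, ← exp_add, neg_add_cancel, exp_zero, mul_one] at this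
    linarith

/-- **Codes below the capacity.** -/
theorem exists_codes [Nonempty X] {W : X → Y → ℝ} (hW : IsChannel W) {R : ℝ} (hR : R < capacity W) :
    ∃ ρ, 0 ≤ ρ ∧ ρ < 1 ∧ ∀ n : ℕ, ∃ (M : ℕ) (c : Fin M → Fin n → X) (d : (Fin n → Y) → Fin M),
      exp (n * R) ≤ M ∧ ∀ i, ∑ v, (if d v = i then 0 else wordW W n (c i) v) ≤ 2 * ρ ^ n := by
  classical
  obtain ⟨p, hp, hC, -⟩ := exists_capacity W
  set c₀ := (R + capacity W) / 2
  obtain ⟨σ, hσ0, hσ1, hσ⟩ := exists_lower_tail hW hp (c := c₀)
    (by rw [hC]; simp only [c₀]; linarith)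
  set τ := exp (R - c₀)
  have hτ : τ < 1 := exp_lt_one_iff.2 (by simp only [c₀]; linarith)
  refine ⟨max σ τ, hσ0.trans (le_max_left _ _), max_lt hσ1 hτ, fun n => ?_⟩
  have hM : 0 < ⌈exp (n * R)⌉₊ := Nat.ceil_pos.2 (exp_pos _)
  obtain ⟨c, D, hdis, hmass, -⟩ := exists_code_sets hW hp
    (fun x y => (relEnt_le_capacity hW hp hC x).1 y) n (T := n * c₀) (δ := σ ^ n)
    (ε := σ ^ n + τ ^ n) (hσ n) ⌈exp (n * R)⌉₊ (by
      have h := Nat.ceil_lt_add_one (exp_pos ((n : ℝ) * R)).le
      rw [add_sub_cancel_left, ← exp_nat_mul, ← exp_add,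
        show (n : ℝ) * (R - c₀) + n * c₀ = n * R by ring]
      linarith)
  refine ⟨_, c, fun v => if h : ∃ i, v ∈ D i then h.choose else ⟨0, hM⟩, Nat.le_ceil _, fun i => ?_⟩
  have hd : ∀ v ∈ D i, (if h : ∃ i, v ∈ D i then h.choose else ⟨0, hM⟩) = i := fun v hv => by
    rw [dif_pos ⟨i, hv⟩]
    by_contra hne
    exact Finset.disjoint_left.1 (hdis _ _ hne) (⟨i, hv⟩ : ∃ j, v ∈ D j).choose_spec hv
  calc ∑ v, (if (if h : ∃ i, v ∈ D i then h.choose else ⟨0, hM⟩) = i then 0 else wordW W n (c i) v)
      ≤ ∑ v, wordW W n (c i) v - ∑ v ∈ D i, wordW W n (c i) v := by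
        rw [show ∑ v, wordW W n (c i) v - ∑ v ∈ D i, wordW W n (c i) v =
            ∑ v ∈ (D i)ᶜ, wordW W n (c i) v by
              linarith [Finset.sum_compl_add_sum (D i) (wordW W n (c i))],
          ← Finset.sum_compl_add_sum (D i) fun v => if (if h : ∃ i, v ∈ D i then h.choose else
            ⟨0, hM⟩) = i then 0 else wordW W n (c i) v,
          Finset.sum_eq_zero (s := D i) fun v hv => if_pos (hd v hv), add_zero]
        refine Finset.sum_le_sum fun v _ => ?_
        split_ifs
        all_goals first | exact wordW_nonneg hW n _ v | exact le_rfl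
    _ ≤ σ ^ n + τ ^ n := by
        rw [sum_wordW hW]
        linarith [hmass i]
    _ ≤ 2 * max σ τ ^ n := by
        linarith [pow_le_pow_left₀ hσ0 (le_max_left σ τ) n,
          pow_le_pow_left₀ (exp_pos _).le (le_max_right σ τ) n]

/-- **The strong converse.** -/
theorem exists_strong_converse [Nonempty X] {W : X → Y → ℝ} (hW : IsChannel W) {R : ℝ}
    (hR : capacity W < R) :
    ∃ ρ, 0 ≤ ρ ∧ ρ < 1 ∧ ∀ (n M : ℕ) (c : Fin M → Fin n → X) (d : (Fin n → Y) → Fin M),
      exp (n * R) ≤ M →
      (∑ i, ∑ v, if d v = i then wordW W n (c i) v else 0) / M ≤ 2 * ρ ^ n := by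
  classical
  obtain ⟨p, hp, hC, -⟩ := exists_capacity W
  set q := out W p
  have hq : q ∈ stdSimplex ℝ Y := out_mem hW hp
  set c₀ := (R + capacity W) / 2
  obtain ⟨σ, hσ0, hσ1, hσ⟩ := exists_upper_tail hW (q := q) (c := c₀) fun x =>
    (relEnt_le_capacity hW hp hC x).2.trans_lt (by simp only [c₀]; linarith)
  set τ := exp (c₀ - R)
  have hτ : τ < 1 := exp_lt_one_iff.2 (by simp only [c₀]; linarith)
  refine ⟨max σ τ, hσ0.trans (le_max_left _ _), max_lt hσ1 hτ, fun n M c d hM => ?_⟩
  have hM0 : (0 : ℝ) < M := (exp_pos _).trans_le hM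
  have hle : ∀ i v, wordW W n (c i) v ≤ exp (n * c₀) * prodLaw q n v +
      (if n * c₀ < infoSum W q n (c i) v then wordW W n (c i) v else 0) := fun i v => by
    have h0 : 0 ≤ exp (n * c₀) * prodLaw q n v :=
      mul_nonneg (exp_pos _).le (Finset.prod_nonneg fun j _ => hq.1 _)
    split_ifs with h
    · linarith
    rw [add_zero]
    rcases eq_or_ne (wordW W n (c i) v) 0 with h2 | h2
    · rwa [h2]
    rw [wordW_eq hW hq.1 h2 fun j hj => (relEnt_le_capacity hW hp hC _).1 _ hj, mul_comm]
    exact mul_le_mul_of_nonneg_right (exp_le_exp.2 (not_lt.1 h))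
      (Finset.prod_nonneg fun j _ => hq.1 _)
  have h1 : ∑ i, ∑ v, (if d v = i then wordW W n (c i) v else 0) ≤
      exp (n * c₀) + M * σ ^ n := by
    calc ∑ i, ∑ v, (if d v = i then wordW W n (c i) v else 0)
        ≤ ∑ i, ∑ v, ((if d v = i then exp (n * c₀) * prodLaw q n v else 0) +
          if n * c₀ < infoSum W q n (c i) v then wordW W n (c i) v else 0) := by
          refine Finset.sum_le_sum fun i _ => Finset.sum_le_sum fun v _ => ?_
          by_cases hd : d v = i
          · rw [if_pos hd, if_pos hd]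
            exact hle i v
          · rw [if_neg hd, if_neg hd, zero_add]
            split_ifs
            exacts [wordW_nonneg hW n _ v, le_rfl]
      _ ≤ _ := by
          simp only [Finset.sum_add_distrib]
          refine add_le_add (le_of_eq ?_)
            ((Finset.sum_le_sum fun i _ => hσ n (c i)).trans_eq (by simp))
          rw [Finset.sum_comm]
          simp [← Finset.mul_sum, sum_prodLaw hq]
  rw [div_le_iff₀ hM0]
  have h2 : exp (n * c₀) ≤ M * τ ^ n := by
    rw [← exp_nat_mul]
    refine le_trans (le_of_eq ?_) (mul_le_mul_of_nonneg_right hM (exp_pos _).le)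
    rw [← exp_add]
    ring_nf
  have h3 := mul_le_mul_of_nonneg_left (pow_le_pow_left₀ hσ0 (le_max_left σ τ) n) hM0.le
  have h4 := mul_le_mul_of_nonneg_left (pow_le_pow_left₀ (exp_pos _).le (le_max_right σ τ) n) hM0.le
  linarith

end FA.ChannelCoding

end
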